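import Fermat.Agent.S55.T.NakH837.Coind

/-!
# S55, layer T, leaf T6 (helper837): dimension shifting preserves lattices

If `A` is finitely generated and free over a PID `k`, so are `coind₁ A` and `up A = coind₁ A / A`.
-/

set_option autoImplicit false
set_option linter.unusedSectionVars false
set_option linter.style.haveILetI false

open CategoryTheory groupCohomology

namespace Fermat.Agent.S55.T.H837

open Fermat.Agent.S55.H572

noncomputable section

variable {k G : Type} [CommRing k] [Group G]

/-- `coind₁ A` is the module of all functions `G → A`. -/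
def coind₁Equiv (A : Rep.{0} k G) : (coind₁ A).V ≃ₗ[k] (G → A.V) where
  toFun φ := φ.1
  map_add' _ _ := rfl
  map_smul' _ _ := rfl
  invFun f := mkCoind (Rep.res (⊥ : Subgroup G).subtype A) f
  left_inv _ := rfl
  right_inv _ := rfl

theorem finite_coind₁ [Finite G] (A : Rep.{0} k G) [Module.Finite k A.V] :
    Module.Finite k (coind₁ A).V :=
  Module.Finite.equiv (coind₁Equiv A).symm

theorem free_coind₁ [Finite G] (A : Rep.{0} k G) [Module.Free k A.V] :
    Module.Free k (coind₁ A).V :=
  Module.Free.of_equiv (coind₁Equiv A).symm

theorem finite_up [Finite G] (A : Rep.{0} k G) [Module.Finite k A.V] :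
    Module.Finite k (up A).V := by
  haveI : Module.Finite k (coind₁ A).V := finite_coind₁ A
  exact Module.Finite.of_surjective (upπ A).hom.toLinearMap
    ((Rep.epi_iff_surjective (upπ A)).1 inferInstance)

/-- Concrete exactness of `A → coind₁ A → up A`. -/
lemma exists_of_upπ_eq_zero (A : Rep.{0} k G) (φ : (coind₁ A).V) (h : (upπ A).hom φ = 0) :
    ∃ a : A.V, (coind₁ι A).hom a = φ := by
  have hr : LinearMap.range (upSC A).f.hom.toLinearMap = LinearMap.ker (upSC A).g.hom.toLinearMap :=
    ((upSC_shortExact A).exact.map (forget₂ (Rep k G) (ModuleCat k))).moduleCat_range_eq_ker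
  have : φ ∈ LinearMap.ker (upSC A).g.hom.toLinearMap := h
  rw [← hr] at this
  exact this

theorem isTorsionFree_up [IsDomain k] (A : Rep.{0} k G) [Module.IsTorsionFree k A.V] :
    Module.IsTorsionFree k (up A).V where
  isSMulRegular r hr := by
    have hr0 : r ≠ 0 := hr.ne_zero
    intro y₁ y₂ hy
    have hy' : r • (y₁ - y₂) = 0 := by
      rw [smul_sub]; exact sub_eq_zero.2 hy
    obtain ⟨φ, hφ⟩ := (Rep.epi_iff_surjective (upπ A)).1 inferInstance (y₁ - y₂)
    have h0 : (upπ A).hom (r • φ) = 0 := by
      rw [map_smul, hφ, hy']
    obtain ⟨a, ha⟩ := exists_of_upπ_eq_zero A _ h0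
    have h1 : ∀ x : G, r • φ.1 x = A.ρ x a := fun x => by
      have := congrArg (fun ψ : (coind₁ A).V => ψ.1 x) ha
      rw [← coind₁ι_hom_apply A a x]
      exact this.symm
    have h2 : (coind₁ι A).hom (φ.1 1) = φ := by
      apply Subtype.ext
      funext x
      rw [coind₁ι_hom_apply]
      apply smul_right_injective (M := A.V) hr0
      change r • A.ρ x (φ.1 1) = r • φ.1 x
      rw [← map_smul, h1 1, h1 x, map_one]
      rfl
    have h3 : y₁ - y₂ = 0 := by
      rw [← hφ, ← h2]
      exact congrArg (fun m : A ⟶ up A => m.hom (φ.1 1)) (upSC A).zero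
    exact sub_eq_zero.1 h3

/-- `up A` is finitely generated free over a PID if `A` is. -/
theorem free_up [Finite G] [IsDomain k] [IsPrincipalIdealRing k] (A : Rep.{0} k G)
    [Module.Free k A.V] [Module.Finite k A.V] : Module.Free k (up A).V := by
  haveI : Module.Finite k (up A).V := finite_up A
  haveI : Module.IsTorsionFree k A.V := inferInstance
  haveI : Module.IsTorsionFree k (up A).V := isTorsionFree_up A
  exact Module.free_of_finite_type_torsion_free'

/-- The invariants of a lattice over a PID are free. -/
theorem free_invariants [IsDomain k] [IsPrincipalIdealRing k] (L : Rep.{0} k G)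
    [Module.Free k L.V] [Module.Finite k L.V] : Module.Free k L.ρ.invariants := by
  haveI : IsNoetherian k L.V := isNoetherian_of_isNoetherianRing_of_finite k L.V
  haveI : Module.Finite k L.ρ.invariants :=
    Module.Finite.of_injective L.ρ.invariants.subtype Subtype.val_injective
  haveI : Module.IsTorsionFree k L.V := inferInstance
  haveI : Module.IsTorsionFree k L.ρ.invariants :=
    Function.Injective.moduleIsTorsionFree L.ρ.invariants.subtype Subtype.val_injective
      (fun _ _ => rfl)
  exact Module.free_of_finite_type_torsion_free'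

end

end Fermat.Agent.S55.T.H837
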