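import Fermat.Agent.S55.T.NakH837.CohTriv
import Fermat.Agent.S55.T.NakH837.Lattice

/-!
# S55, layer T, leaf T6 (helper837): two-step connecting maps and their naturality

* `ddUp R : H⁰(G, up (up R)) ⟶ H²(G, R)` (surjective);
* `ddRow : H⁰(G, T) ⟶ H²(G, C)` for exact rows `C → X → I`, `I → P → T`;
* `ddUp_comp_map` : compatibility for a morphism of two-step extensions.
-/

set_option autoImplicit false
set_option linter.unusedSectionVars false
set_option linter.style.haveILetI false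

open CategoryTheory groupCohomology

namespace Fermat.Agent.S55.T.H837

open Fermat.Agent.S55.H572

noncomputable section

variable {k G : Type} [CommRing k] [Group G]

/-- `Hⁿ⁺¹(G, coind₁ A) = 0`. -/
lemma isZero_groupCohomology_coind₁ (A : Rep.{0} k G) (n : ℕ) :
    Limits.IsZero (groupCohomology (coind₁ A) (n + 1)) :=
  Limits.IsZero.of_iso (isZero_groupCohomology_succ_of_subsingleton _ n)
    (groupCohomology.coindIso _ (n + 1))

/-- The connecting map `H⁰(G, up A) ⟶ H¹(G, A)`. -/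
def δUp₀ (A : Rep.{0} k G) : groupCohomology (up A) 0 ⟶ groupCohomology A 1 :=
  δ (upSC_shortExact A) 0 1 rfl

/-- The connecting map `H¹(G, up A) ⟶ H²(G, A)`. -/
def δUp₁ (A : Rep.{0} k G) : groupCohomology (up A) 1 ⟶ groupCohomology A 2 :=
  δ (upSC_shortExact A) 1 2 rfl

instance δUp₀_epi (A : Rep.{0} k G) : Epi (δUp₀ A) :=
  epi_δ_of_isZero (upSC_shortExact A) 0 (isZero_groupCohomology_coind₁ A 0)

instance δUp₁_isIso (A : Rep.{0} k G) : IsIso (δUp₁ A) :=
  isIso_δ_of_isZero (upSC_shortExact A) 1 (isZero_groupCohomology_coind₁ A 0)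
    (isZero_groupCohomology_coind₁ A 1)

/-- `H⁰(G, coind₁ A) → H⁰(G, up A) → H¹(G, A)` is a complex. -/
lemma map_upπ_comp_δUp₀ (A : Rep.{0} k G) :
    coeffMap (upπ A) 0 ≫ δUp₀ A = 0 :=
  (mapShortComplex₃ (upSC_shortExact A) (i := 0) (j := 1) rfl).zero

/-- The two-step connecting map `H⁰(G, up (up R)) ⟶ H²(G, R)`. -/
def ddUp (R : Rep.{0} k G) : groupCohomology (up (up R)) 0 ⟶ groupCohomology R 2 :=
  δUp₀ (up R) ≫ δUp₁ R

instance ddUp_epi (R : Rep.{0} k G) : Epi (ddUp R) := by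
  unfold ddUp
  infer_instance

lemma ddUp_surjective (R : Rep.{0} k G) : Function.Surjective (ddUp R).hom :=
  (ModuleCat.epi_iff_surjective _).1 inferInstance

section rows

variable {C X I P T : Rep.{0} k G} {i : C ⟶ X} {π : X ⟶ I} {j : I ⟶ P} {ε : P ⟶ T}
  {w₁ : i ≫ π = 0} {w₂ : j ≫ ε = 0}
  (hA : (ShortComplex.mk i π w₁).ShortExact) (hB : (ShortComplex.mk j ε w₂).ShortExact)

/-- The connecting map `H¹(G, I) ⟶ H²(G, C)` of the row `C → X → I`. -/
def δRow₁ : groupCohomology I 1 ⟶ groupCohomology C 2 := δ hA 1 2 rfl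

/-- The connecting map `H⁰(G, T) ⟶ H¹(G, I)` of the row `I → P → T`. -/
def δRow₀ : groupCohomology T 0 ⟶ groupCohomology I 1 := δ hB 0 1 rfl

/-- The two-step connecting map `H⁰(G, T) ⟶ H²(G, C)` of two exact rows. -/
def ddRow : groupCohomology T 0 ⟶ groupCohomology C 2 :=
  δRow₀ hB ≫ δRow₁ hA

include hA hB in
lemma ddRow_surjective (h1 : Limits.IsZero (groupCohomology P 1))
    (h2 : Limits.IsZero (groupCohomology X 2)) : Function.Surjective (ddRow hA hB).hom := by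
  haveI : Epi (δRow₀ hB) := epi_δ_of_isZero hB 0 h1
  haveI : Epi (δRow₁ hA) := epi_δ_of_isZero hA 1 h2
  haveI : Epi (ddRow hA hB) := by unfold ddRow; infer_instance
  exact (ModuleCat.epi_iff_surjective _).1 inferInstance

/-- Kernel of `ddRow`: invariants of `T` coming from invariants of `P`. -/
lemma exists_of_ddRow_eq_zero (h1 : Limits.IsZero (groupCohomology X 1))
    (t : T.ρ.invariants) (ht : (ddRow hA hB).hom ((H0Iso T).inv t) = 0) :
    ∃ p : P.V, (∀ g : G, P.ρ g p = p) ∧ ε.hom p = t.1 := by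
  haveI : Mono (δRow₁ hA) := mono_δ_of_isZero hA 1 h1
  have h3 : (δRow₀ hB).hom ((H0Iso T).inv t) = 0 := by
    apply (ModuleCat.mono_iff_injective (δRow₁ hA)).1 inferInstance
    rw [map_zero]
    exact ht
  have hex := mapShortComplex₃_exact hB (i := 0) (j := 1) rfl
  rw [ShortComplex.moduleCat_exact_iff] at hex
  obtain ⟨w, hw⟩ := hex _ h3
  refine ⟨((H0Iso P).hom w).1, fun g => ((H0Iso P).hom w).2 g, ?_⟩
  have h4 := congrArg (fun m => (m.hom w).1) (map_id_comp_H0Iso_hom ε)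
  have h5 : (H0Iso T).hom ((coeffMap ε 0).hom w) = t := by
    have : (coeffMap ε 0).hom w = (H0Iso T).inv t := hw
    rw [this]
    exact congrArg (fun m => m.hom t) (H0Iso T).inv_hom_id
  have h6 : ((H0Iso T).hom ((coeffMap ε 0).hom w)).1 = ε.hom ((H0Iso P).hom w).1 :=
    h4
  rw [← h6, h5]

/-- Naturality of the two-step connecting maps for a morphism of two-step extensions. -/
theorem ddUp_comp_map {R : Rep.{0} k G} (f : R ⟶ C) (t₂ : coind₁ R ⟶ X) (h : up R ⟶ I)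
    (t₂' : coind₁ (up R) ⟶ P) (e : up (up R) ⟶ T)
    (c1 : f ≫ i = coind₁ι R ≫ t₂) (c2 : t₂ ≫ π = upπ R ≫ h)
    (c3 : h ≫ j = coind₁ι (up R) ≫ t₂') (c4 : t₂' ≫ ε = upπ (up R) ≫ e) :
    ddUp R ≫ coeffMap f 2 = coeffMap e 0 ≫ ddRow hA hB := by
  let Φ₁ : upSC R ⟶ ShortComplex.mk i π w₁ :=
    { τ₁ := f, τ₂ := t₂, τ₃ := h, comm₁₂ := c1, comm₂₃ := c2 }
  let Φ₂ : upSC (up R) ⟶ ShortComplex.mk j ε w₂ :=
    { τ₁ := h, τ₂ := t₂', τ₃ := e, comm₁₂ := c3, comm₂₃ := c4 }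
  have n1 : δUp₁ R ≫ coeffMap f 2 = coeffMap h 1 ≫ δRow₁ hA :=
    δ_naturality (upSC_shortExact R) hA Φ₁ 1 2 rfl
  have n2 : δUp₀ (up R) ≫ coeffMap h 1 = coeffMap e 0 ≫ δRow₀ hB :=
    δ_naturality (upSC_shortExact (up R)) hB Φ₂ 0 1 rfl
  unfold ddUp ddRow
  rw [Category.assoc, n1, ← Category.assoc, n2, Category.assoc]

end rows

end

end Fermat.Agent.S55.T.H837
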