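import Fermat.Agent.S55.T.NakH837.Coind
import Fermat.Agent.S55.T.Spec2
import Fermat.Agent.S55.T.ClassModuleOfCyclicH53
import Fermat.Agent.S55.H295.CohTriv

/-!
# S55, layer T, leaf T6 (helper837): consequences of cohomological triviality at the level of `G`

* `isZero_groupCohomology_of_isCohTriv` : `Hⁿ⁺¹(G, X) = 0`;
* `exists_norm_of_isCohTriv` : invariants of `X` are norms;
* `exists_normHom_of_nakayama` : (from `NakayamaSpec`) every morphism from a lattice to a
  cohomologically trivial module is the norm of a linear map.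
-/

set_option autoImplicit false
set_option linter.unusedSectionVars false

open CategoryTheory groupCohomology

namespace Fermat.Agent.S55.T.H837

open Fermat.Agent.S55.H572

noncomputable section

variable {k G : Type} [CommRing k] [Group G] [Fintype G]

/-- `Hⁿ⁺¹(G, X) = 0` for cohomologically trivial `X`. -/
theorem isZero_groupCohomology_of_isCohTriv {X : Rep.{0} k G} (hX : IsCohTriv X) (n : ℕ) :
    Limits.IsZero (groupCohomology X (n + 1)) := by
  classical
  have h1 := hX (⊤ : Subgroup G) ((n + 1 : ℕ) : ℤ)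
  rw [Fermat.Agent.S55.H295.isZero_tate_iff_group] at h1
  exact Limits.IsZero.of_iso h1 (Fermat.Agent.S55.T.H53.topIso X (n + 1)).symm

/-- Invariants of a cohomologically trivial representation are norms. -/
theorem exists_norm_of_isCohTriv {X : Rep.{0} k G} (hX : IsCohTriv X) (x : X.V)
    (hx : ∀ g : G, X.ρ g x = x) : ∃ y : X.V, ∑ g : G, X.ρ g y = x := by
  classical
  have h1 := hX (⊤ : Subgroup G) 0
  rw [isZero_tateCohomology_zero_iff] at h1
  obtain ⟨y, hy⟩ := h1 x (fun g => hx g.1)
  refine ⟨y, ?_⟩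
  rw [← hy]
  change _ = (∑ g : (⊤ : Subgroup G), (resSub X ⊤).ρ g) y
  rw [LinearMap.sum_apply]
  exact (Fintype.sum_equiv (Subgroup.topEquiv (G := G)).toEquiv _ _ fun g => rfl).symm

/-- If `Hom(R, X)` is cohomologically trivial, every morphism `R ⟶ X` is the norm of a linear
map. -/
theorem exists_normHom_of_isCohTriv_ihom {R X : Rep.{0} k G}
    (hY : IsCohTriv ((Rep.ihom R).obj X)) (f : R ⟶ X) :
    ∃ ψ : R.V →ₗ[k] X.V, f = normHom ψ := by
  have key : ∃ ψ : R.V →ₗ[k] X.V,
      ∑ g : G, (Representation.linHom R.ρ X.ρ g) ψ = f.hom.toLinearMap :=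
    exists_norm_of_isCohTriv (X := Rep.of (Representation.linHom R.ρ X.ρ)) hY
      f.hom.toLinearMap (fun g => by
        change X.ρ g ∘ₗ f.hom.toLinearMap ∘ₗ R.ρ g⁻¹ = f.hom.toLinearMap
        apply LinearMap.ext
        intro a
        change X.ρ g (f.hom (R.ρ g⁻¹ a)) = f.hom a
        rw [Rep.hom_comm_apply, ← Module.End.mul_apply, ← map_mul, mul_inv_cancel, map_one]
        rfl)
  obtain ⟨ψ, hψ⟩ := key
  refine ⟨ψ, ?_⟩
  apply Rep.hom_ext
  apply Representation.IntertwiningMap.ext
  apply LinearMap.ext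
  intro a
  change f.hom.toLinearMap a = (normHom ψ).hom a
  rw [← hψ, normHom_hom_apply, LinearMap.sum_apply]
  rfl

end

end Fermat.Agent.S55.T.H837
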