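import Fermat.Agent.S55.T.NakH837.WeakProj

/-!
# S55, layer T, leaf T6 (helper837): `coind₁ A` is weakly projective; lifting and extension

* `isWeakProj_coind₁` : `coind₁ A = Fun(G, A)` is weakly projective.
* `exists_lift_coind₁` : a morphism `coind₁ A ⟶ Z` lifts along a surjection `Y ⟶ Z`
  (if `A` is projective over `k`).
* `coind₁ι_comp_normHom_ev` : a norm `N ψ : A ⟶ T` extends to `coind₁ A ⟶ T`.
-/

set_option autoImplicit false
set_option linter.unusedSectionVars false

open CategoryTheory groupCohomology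

namespace Fermat.Agent.S55.T.H837

open Fermat.Agent.S55.H572

noncomputable section

variable {k G : Type} [CommRing k] [Group G] [Fintype G]

/-- Evaluation at `1 : G`, as a linear map `coind₁ A → A`. -/
def ev₁ (A : Rep.{0} k G) : (coind₁ A).V →ₗ[k] A.V where
  toFun φ := φ.1 1
  map_add' _ _ := rfl
  map_smul' _ _ := rfl

lemma ev₁_apply (A : Rep.{0} k G) (φ : (coind₁ A).V) : ev₁ A φ = φ.1 1 := rfl

open Classical in
/-- The function supported at `1 : G` with value `a`, as a linear map `A → coind₁ A`. -/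
def place₁ (A : Rep.{0} k G) : A.V →ₗ[k] (coind₁ A).V where
  toFun a := mkCoind (Rep.res (⊥ : Subgroup G).subtype A) (fun x => if x = 1 then a else 0)
  map_add' a b := by
    apply Subtype.ext
    funext x
    change (if x = 1 then a + b else 0) = (if x = 1 then a else 0) + (if x = 1 then b else 0)
    split_ifs <;> simp
  map_smul' r a := by
    apply Subtype.ext
    funext x
    change (if x = 1 then r • a else 0) = r • (if x = 1 then a else 0)
    split_ifs <;> simp

open Classical in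
lemma place₁_apply (A : Rep.{0} k G) (a : A.V) (x : G) :
    (place₁ A a).1 x = if x = 1 then a else 0 := rfl

lemma ev₁_coind₁ι (A : Rep.{0} k G) (a : A.V) : ev₁ A ((coind₁ι A).hom a) = a := by
  rw [ev₁_apply, coind₁ι_hom_apply, map_one]
  rfl

lemma coind₁_sum_coe {ι : Type*} (A : Rep.{0} k G) (s : Finset ι) (F : ι → (coind₁ A).V)
    (x : G) : (∑ i ∈ s, F i).1 x = ∑ i ∈ s, (F i).1 x := by
  rw [Submodule.coe_sum, Finset.sum_apply]

/-- `coind₁ A` is weakly projective. -/
theorem isWeakProj_coind₁ (A : Rep.{0} k G) : IsWeakProj (coind₁ A) := by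
  classical
  refine ⟨place₁ A ∘ₗ ev₁ A, fun φ => ?_⟩
  apply Subtype.ext
  funext x
  rw [coind₁_sum_coe]
  have key : ∀ g : G, ((coind₁ A).ρ g ((place₁ A ∘ₗ ev₁ A) ((coind₁ A).ρ g⁻¹ φ))).1 x =
      if g = x⁻¹ then φ.1 x else 0 := by
    intro g
    rw [coind_ρ_coe, LinearMap.comp_apply, place₁_apply, ev₁_apply, coind_ρ_coe, one_mul]
    by_cases h : g = x⁻¹
    · subst h
      simp
    · have : ¬ x * g = 1 := fun h' => h (eq_inv_of_mul_eq_one_right h')
      simp [h, this]
  rw [Finset.sum_congr rfl fun g _ => key g]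
  simp

/-- A morphism out of `coind₁ A` is a norm. -/
lemma hom_coind₁_eq_normHom {A B : Rep.{0} k G} (F : coind₁ A ⟶ B) :
    ∃ ψ : (coind₁ A).V →ₗ[k] B.V, F = normHom ψ :=
  hom_eq_normHom_of_isWeakProj_left (isWeakProj_coind₁ A) F

/-- Lifting property of `coind₁ A` (for `A` projective over `k`) against surjections. -/
theorem exists_lift_coind₁ {A Y Z : Rep.{0} k G} [Module.Projective k A.V] (q : Y ⟶ Z)
    (hq : Function.Surjective q.hom) (F : coind₁ A ⟶ Z) :
    ∃ F' : coind₁ A ⟶ Y, F' ≫ q = F := by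
  obtain ⟨h, hh⟩ := Module.projective_lifting_property q.hom.toLinearMap
    (F.hom.toLinearMap ∘ₗ place₁ A) hq
  refine ⟨normHom (h ∘ₗ ev₁ A), ?_⟩
  rw [normHom_comp, ← LinearMap.comp_assoc, hh, LinearMap.comp_assoc, ← normHom_comp]
  obtain ⟨u, hu⟩ := isWeakProj_coind₁ A
  have : normHom (place₁ A ∘ₗ ev₁ A) = 𝟙 (coind₁ A) := by
    apply IsWeakProj.normHom_eq
    classical
    intro φ
    apply Subtype.ext
    funext x
    rw [coind₁_sum_coe]
    have key : ∀ g : G, ((coind₁ A).ρ g ((place₁ A ∘ₗ ev₁ A) ((coind₁ A).ρ g⁻¹ φ))).1 x =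
        if g = x⁻¹ then φ.1 x else 0 := by
      intro g
      rw [coind_ρ_coe, LinearMap.comp_apply, place₁_apply, ev₁_apply, coind_ρ_coe, one_mul]
      by_cases h : g = x⁻¹
      · subst h
        simp
      · have : ¬ x * g = 1 := fun h' => h (eq_inv_of_mul_eq_one_right h')
        simp [h, this]
    rw [Finset.sum_congr rfl fun g _ => key g]
    simp
  rw [this, Category.id_comp]

/-- A norm `N ψ : A ⟶ T` extends along `A ⟶ coind₁ A`. -/
theorem coind₁ι_comp_normHom_ev {A T : Rep.{0} k G} (ψ : A.V →ₗ[k] T.V) :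
    coind₁ι A ≫ normHom (ψ ∘ₗ ev₁ A) = normHom ψ := by
  rw [comp_normHom]
  congr 1
  apply LinearMap.ext
  intro a
  change ψ (ev₁ A ((coind₁ι A).hom a)) = ψ a
  rw [ev₁_coind₁ι]

end

end Fermat.Agent.S55.T.H837
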