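import Fermat.Agent.S55.T.NakH837.Chase

/-!
# S55, layer T, leaf T6 (helper837): element-level statements for the two-step connecting maps
-/

set_option autoImplicit false
set_option linter.unusedSectionVars false
set_option linter.style.haveILetI false

open CategoryTheory groupCohomology

namespace Fermat.Agent.S55.T.H837

open Fermat.Agent.S55.H572

noncomputable section

variable {k G : Type} [CommRing k] [Group G] [Fintype G]

/-- Norms induce zero on cohomology in positive degrees. -/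
theorem coeffMap_normHom_eq_zero {A B : Rep.{0} k G} (ψ : A.V →ₗ[k] B.V) (n : ℕ) :
    coeffMap (normHom ψ) (n + 1) = 0 := by
  rw [← coind₁ι_comp_normHom_ev ψ]
  have h := map_id_comp (coind₁ι A) (normHom (ψ ∘ₗ ev₁ A)) (n + 1)
  have h0 : coeffMap (coind₁ι A) (n + 1) = 0 :=
    (isZero_groupCohomology_coind₁ A n).eq_of_tgt _ _
  change coeffMap (coind₁ι A ≫ normHom (ψ ∘ₗ ev₁ A)) (n + 1) = 0
  have h' : coeffMap (coind₁ι A ≫ normHom (ψ ∘ₗ ev₁ A)) (n + 1) =
      coeffMap (coind₁ι A) (n + 1) ≫ coeffMap (normHom (ψ ∘ₗ ev₁ A)) (n + 1) := h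
  rw [h', h0, Limits.zero_comp]

/-- The norm of an element is invariant. -/
lemma norm_mem_invariants (A : Rep.{0} k G) (y : A.V) :
    (∑ g : G, A.ρ g y) ∈ A.ρ.invariants := by
  intro h
  rw [map_sum]
  refine Fintype.sum_equiv (Equiv.mulLeft h) _ _ fun g => ?_
  change A.ρ h (A.ρ g y) = A.ρ (h * g) y
  rw [map_mul]
  rfl

/-- The image of an invariant under a morphism, as an invariant. -/
def mapInv {A B : Rep.{0} k G} (f : A ⟶ B) (a : A.ρ.invariants) : B.ρ.invariants :=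
  ⟨f.hom a.1, fun g => by rw [← Rep.hom_comm_apply, a.2 g]⟩

lemma coeffMap_zero_H0Iso_inv {A B : Rep.{0} k G} (f : A ⟶ B) (a : A.ρ.invariants) :
    (coeffMap f 0).hom ((H0Iso A).inv a) = (H0Iso B).inv (mapInv f a) := by
  have h := congrArg (fun m => m.hom ((H0Iso A).inv a)) (map_id_comp_H0Iso_hom f)
  have h1 : (H0Iso B).hom ((coeffMap f 0).hom ((H0Iso A).inv a)) =
      ((Rep.invariantsFunctor k G).map f).hom ((H0Iso A).hom ((H0Iso A).inv a)) := h
  have h2 : (H0Iso A).hom ((H0Iso A).inv a) = a :=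
    congrArg (fun m => m.hom a) (H0Iso A).inv_hom_id
  rw [h2] at h1
  have h3 : ((Rep.invariantsFunctor k G).map f).hom a = mapInv f a := rfl
  rw [h3] at h1
  rw [← h1]
  exact (congrArg (fun m => m.hom ((coeffMap f 0).hom ((H0Iso A).inv a)))
    (H0Iso B).hom_inv_id).symm

/-- The connecting map `H⁰(G, up A) → H¹(G, A)` kills norms. -/
lemma δUp₀_norm (A : Rep.{0} k G) (y : (up A).V) :
    (δUp₀ A).hom ((H0Iso (up A)).inv ⟨∑ g : G, (up A).ρ g y, norm_mem_invariants _ y⟩) = 0 := by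
  obtain ⟨z, hz⟩ := (Rep.epi_iff_surjective (upπ A)).1 inferInstance y
  have h1 : (⟨∑ g : G, (up A).ρ g y, norm_mem_invariants _ y⟩ : (up A).ρ.invariants) =
      mapInv (upπ A) ⟨∑ g : G, (coind₁ A).ρ g z, norm_mem_invariants _ z⟩ := by
    apply Subtype.ext
    change ∑ g : G, (up A).ρ g y = (upπ A).hom (∑ g : G, (coind₁ A).ρ g z)
    rw [map_sum, ← hz]
    refine Finset.sum_congr rfl fun g _ => ?_
    exact (Rep.hom_comm_apply (upπ A) g z).symm
  rw [h1, ← coeffMap_zero_H0Iso_inv]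
  exact congrArg (fun m => m.hom ((H0Iso (coind₁ A)).inv
    ⟨∑ g : G, (coind₁ A).ρ g z, norm_mem_invariants _ z⟩)) (map_upπ_comp_δUp₀ A)

/-- The two-step connecting map kills norms. -/
lemma ddUp_norm (R : Rep.{0} k G) (y : (up (up R)).V) :
    (ddUp R).hom ((H0Iso (up (up R))).inv
      ⟨∑ g : G, (up (up R)).ρ g y, norm_mem_invariants _ y⟩) = 0 := by
  change (δUp₁ R).hom ((δUp₀ (up R)).hom _) = 0
  rw [δUp₀_norm, map_zero]

section rows

variable {C X I P T : Rep.{0} k G} {i : C ⟶ X} {π : X ⟶ I} {j : I ⟶ P} {ε : P ⟶ T}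
  {w₁ : i ≫ π = 0} {w₂ : j ≫ ε = 0}
  (hA : (ShortComplex.mk i π w₁).ShortExact) (hB : (ShortComplex.mk j ε w₂).ShortExact)

/-- Element form of `ddUp_comp_map`. -/
theorem coeffMap_ddUp {R : Rep.{0} k G} (f : R ⟶ C) (t₂ : coind₁ R ⟶ X) (h : up R ⟶ I)
    (t₂' : coind₁ (up R) ⟶ P) (e : up (up R) ⟶ T)
    (c1 : f ≫ i = coind₁ι R ≫ t₂) (c2 : t₂ ≫ π = upπ R ≫ h)
    (c3 : h ≫ j = coind₁ι (up R) ≫ t₂') (c4 : t₂' ≫ ε = upπ (up R) ≫ e)
    (r : (up (up R)).ρ.invariants) :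
    (coeffMap f 2).hom ((ddUp R).hom ((H0Iso _).inv r)) =
      (ddRow hA hB).hom ((H0Iso T).inv (mapInv e r)) := by
  have h1 := congrArg (fun m => m.hom ((H0Iso (up (up R))).inv r))
    (ddUp_comp_map hA hB f t₂ h t₂' e c1 c2 c3 c4)
  have h2 : (coeffMap f 2).hom ((ddUp R).hom ((H0Iso _).inv r)) =
      (ddRow hA hB).hom ((coeffMap e 0).hom ((H0Iso _).inv r)) := h1
  rw [h2, coeffMap_zero_H0Iso_inv]

/-- If `ddRow` kills the class of an invariant `t` and invariants of `P` are norms, then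
`t` is `|G|` times an element in the image of `ε`. -/
lemma exists_card_smul_of_ddRow_eq_zero (hX1 : Limits.IsZero (groupCohomology X 1))
    (hP : IsCohTriv P) (hT : ∀ (g : G) (t : T.V), T.ρ g t = t)
    (t : T.ρ.invariants) (ht : (ddRow hA hB).hom ((H0Iso T).inv t) = 0) :
    ∃ s : T.V, t.1 = Fintype.card G • s := by
  obtain ⟨p, hp, hpt⟩ := exists_of_ddRow_eq_zero hA hB hX1 t ht
  obtain ⟨q, hq⟩ := exists_norm_of_isCohTriv hP p hp
  refine ⟨ε.hom q, ?_⟩
  rw [← hpt, ← hq, map_sum]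
  have : ∀ g : G, ε.hom (P.ρ g q) = ε.hom q := fun g => by
    rw [Rep.hom_comm_apply, hT]
  rw [Finset.sum_congr rfl fun g _ => this g]
  simp

end rows

end

end Fermat.Agent.S55.T.H837
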