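import Fermat.Agent.S55.T.NakH837.Elements

/-!
# S55, layer T, leaf T6 (helper837): elementary lattice duality in degree `0`

For a lattice `L` over a PID `k` in which `n = |G|` is nonzero:
* `exists_hom_of_dvd_norm` : a linear functional `μ` on `L^G` with `μ (N y) ∈ n k` for all `y` is
  the restriction of a `G`-invariant functional `e` on `L`;
* `exists_normHom_of_dvd_invariants` : a `G`-invariant functional `e` on `L` with `e (L^G) ⊆ n k`
  is the norm of a linear functional.
-/

set_option autoImplicit false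
set_option linter.unusedSectionVars false
set_option linter.style.haveILetI false

open CategoryTheory groupCohomology

namespace Fermat.Agent.S55.T.H837

open Fermat.Agent.S55.H572

noncomputable section

variable {k G : Type} [CommRing k] [IsDomain k] [Group G] [Fintype G]

/-- The norm as a linear map into the invariants. -/
def normInv (L : Rep.{0} k G) : L.V →ₗ[k] L.ρ.invariants :=
  (L.ρ.norm).codRestrict L.ρ.invariants fun y => by
    have := norm_mem_invariants L y
    simpa [Representation.norm, LinearMap.sum_apply] using this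

lemma normInv_coe (L : Rep.{0} k G) (y : L.V) : ((normInv L y : L.ρ.invariants) : L.V) =
    ∑ g : G, L.ρ g y := by
  simp [normInv, Representation.norm, LinearMap.sum_apply]

lemma normInv_ρ (L : Rep.{0} k G) (g : G) (y : L.V) : normInv L (L.ρ g y) = normInv L y := by
  apply Subtype.ext
  rw [normInv_coe, normInv_coe]
  refine Fintype.sum_equiv (Equiv.mulRight g) _ _ fun h => ?_
  change L.ρ h (L.ρ g y) = L.ρ (h * g) y
  rw [map_mul]
  rfl

lemma normInv_invariant (L : Rep.{0} k G) (r : L.ρ.invariants) :
    normInv L r.1 = (Fintype.card G : k) • r := by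
  apply Subtype.ext
  rw [normInv_coe, Finset.sum_congr rfl fun g _ => r.2 g]
  simp [Nat.cast_smul_eq_nsmul]

/-- **Lattice duality, surjectivity.**  A functional on `L^G` whose values on norms are divisible
by `n = |G|` is the restriction of an invariant functional on `L`. -/
theorem exists_hom_of_dvd_norm (hn : (Fintype.card G : k) ≠ 0) (L : Rep.{0} k G)
    (μ : L.ρ.invariants →ₗ[k] k)
    (hμ : ∀ y : L.V, ∃ c : k, μ (normInv L y) = (Fintype.card G : k) * c) :
    ∃ e : L ⟶ Rep.trivial k G k, ∀ r : L.ρ.invariants, e.hom r.1 = μ r := by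
  choose c hc using hμ
  have hadd : ∀ a b, c (a + b) = c a + c b := fun a b => by
    apply mul_left_cancel₀ hn
    rw [← hc, mul_add, ← hc, ← hc, map_add, map_add]
  have hsmul : ∀ (t : k) (a : L.V), c (t • a) = t * c a := fun t a => by
    apply mul_left_cancel₀ hn
    rw [← hc, map_smul, map_smul, hc, smul_eq_mul]
    ring
  let e₀ : L.V →ₗ[k] k :=
    { toFun := c
      map_add' := hadd
      map_smul' := fun t a => by rw [hsmul]; rfl }
  have hequiv : ∀ (g : G) (y : L.V), c (L.ρ g y) = c y := fun g y => by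
    apply mul_left_cancel₀ hn
    rw [← hc, ← hc, normInv_ρ]
  refine ⟨Rep.ofHom (ρ := L.ρ) (σ := (Rep.trivial k G k).ρ) ⟨e₀, fun g => ?_⟩, fun r => ?_⟩
  · apply LinearMap.ext
    intro y
    exact hequiv g y
  · change c r.1 = μ r
    apply mul_left_cancel₀ hn
    rw [← hc, normInv_invariant, map_smul, smul_eq_mul]

/-- The invariants of a lattice over a PID form a direct summand. -/
theorem exists_retraction_invariants [IsPrincipalIdealRing k] (L : Rep.{0} k G)
    [Module.Free k L.V] [Module.Finite k L.V] :
    ∃ ρ₀ : L.V →ₗ[k] L.ρ.invariants, ∀ r : L.ρ.invariants, ρ₀ r.1 = r := by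
  haveI : Module.IsTorsionFree k (L.V ⧸ L.ρ.invariants) :=
    { isSMulRegular := fun t ht => by
        have ht0 : t ≠ 0 := ht.ne_zero
        intro q₁ q₂ hq
        have hq' : t • (q₁ - q₂) = 0 := by
          rw [smul_sub]; exact sub_eq_zero.2 hq
        obtain ⟨y, hy⟩ := Submodule.Quotient.mk_surjective L.ρ.invariants (q₁ - q₂)
        rw [← hy, ← Submodule.Quotient.mk_smul, Submodule.Quotient.mk_eq_zero] at hq'
        have hy0 : y ∈ L.ρ.invariants := by
          intro g
          apply smul_right_injective (M := L.V) ht0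
          change t • L.ρ g y = t • y
          rw [← map_smul]
          exact hq' g
        have : q₁ - q₂ = 0 := by
          rw [← hy]
          exact (Submodule.Quotient.mk_eq_zero _).2 hy0
        exact sub_eq_zero.1 this }
  haveI : Module.Free k (L.V ⧸ L.ρ.invariants) := Module.free_of_finite_type_torsion_free'
  obtain ⟨s, hs⟩ := Module.projective_lifting_property (L.ρ.invariants.mkQ) LinearMap.id
    (Submodule.mkQ_surjective _)
  let d : L.V →ₗ[k] L.V := LinearMap.id - s ∘ₗ L.ρ.invariants.mkQ
  have hmem : ∀ y : L.V, d y ∈ L.ρ.invariants := by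
    intro y
    rw [← Submodule.Quotient.mk_eq_zero]
    change L.ρ.invariants.mkQ (y - s (L.ρ.invariants.mkQ y)) = 0
    rw [map_sub]
    have := congrArg (fun m => m (L.ρ.invariants.mkQ y)) hs
    change L.ρ.invariants.mkQ (s (L.ρ.invariants.mkQ y)) = L.ρ.invariants.mkQ y at this
    rw [this, sub_self]
  refine ⟨d.codRestrict L.ρ.invariants hmem, fun r => ?_⟩
  apply Subtype.ext
  change r.1 - s (L.ρ.invariants.mkQ r.1) = r.1
  have : L.ρ.invariants.mkQ r.1 = 0 := (Submodule.Quotient.mk_eq_zero _).2 r.2
  rw [this, map_zero, sub_zero]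

/-- **Lattice duality, injectivity.**  An invariant functional on a lattice `L` whose values on
`L^G` are divisible by `n = |G|` is the norm of a linear functional. -/
theorem exists_normHom_of_dvd_invariants [IsPrincipalIdealRing k]
    (hn : (Fintype.card G : k) ≠ 0) (L : Rep.{0} k G)
    [Module.Free k L.V] [Module.Finite k L.V] (e : L ⟶ Rep.trivial k G k)
    (he : ∀ r : L.ρ.invariants, ∃ c : k, e.hom r.1 = (Fintype.card G : k) * c) :
    ∃ ψ : L.V →ₗ[k] k, e = normHom (B := Rep.trivial k G k) ψ := by
  choose c hc using he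
  have hadd : ∀ a b, c (a + b) = c a + c b := fun a b => by
    apply mul_left_cancel₀ hn
    rw [← hc, mul_add, ← hc, ← hc]
    exact map_add e.hom a.1 b.1
  have hsmul : ∀ (t : k) (a : L.ρ.invariants), c (t • a) = t * c a := fun t a => by
    apply mul_left_cancel₀ hn
    rw [← hc]
    have : e.hom (t • a).1 = t • e.hom a.1 := map_smul e.hom t a.1
    rw [this, hc, smul_eq_mul]
    ring
  let e'' : L.ρ.invariants →ₗ[k] k :=
    { toFun := c
      map_add' := hadd
      map_smul' := fun t a => by rw [hsmul]; rfl }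
  obtain ⟨ρ₀, hρ₀⟩ := exists_retraction_invariants L
  refine ⟨e'' ∘ₗ ρ₀, ?_⟩
  apply Rep.hom_ext
  apply Representation.IntertwiningMap.ext
  apply LinearMap.ext
  intro y
  change e.hom y = (normHom (B := Rep.trivial k G k) (e'' ∘ₗ ρ₀)).hom y
  rw [normHom_hom_apply]
  have h1 : ∀ g : G, (Rep.trivial k G k).ρ g ((e'' ∘ₗ ρ₀) (L.ρ g⁻¹ y)) =
      (e'' ∘ₗ ρ₀) (L.ρ g⁻¹ y) := fun g => rfl
  rw [Finset.sum_congr rfl fun g _ => h1 g, ← map_sum]
  have h2 : ∑ g : G, L.ρ g⁻¹ y = (normInv L y).1 := by
    rw [normInv_coe]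
    exact Fintype.sum_equiv (Equiv.inv G) _ _ fun g => rfl
  rw [h2]
  change e.hom y = c (ρ₀ (normInv L y).1)
  rw [hρ₀]
  apply mul_left_cancel₀ hn
  rw [← hc, normInv_coe, map_sum]
  have h3 : ∀ g : G, e.hom (L.ρ g y) = e.hom y := fun g => by
    rw [Rep.hom_comm_apply]
    rfl
  rw [Finset.sum_congr rfl fun g _ => h3 g]
  simp

end

end Fermat.Agent.S55.T.H837
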