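import Fermat.Agent.S55.T.NakH837.LatDual

/-!
# S55, layer T, leaf T6 (helper837): Tate–Nakayama for lattices, generic coefficient ring

Let `k` be a PID in which `n = |G|` is nonzero, and let

  `0 → C → X → I → 0`,   `0 → I → P → k → 0`

be exact rows of `G`-representations with `X`, `P` cohomologically trivial.  For a lattice `R`:

* `exists_hom_coeffMap_eq` : every `k`-linear map `H²(G, R) → H²(G, C)` is induced by a morphism
  `R ⟶ C`;
* `exists_normHom_of_coeffMap_eq_zero` : if `Hom(R, X)` and `Hom(up R, P)` are cohomologically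
  trivial (Nakayama), a morphism `R ⟶ C` inducing zero on `H²` is the norm of a linear map.
-/

set_option autoImplicit false
set_option linter.unusedSectionVars false
set_option linter.style.haveILetI false

open CategoryTheory groupCohomology

namespace Fermat.Agent.S55.T.H837

open Fermat.Agent.S55.H572

noncomputable section

variable {k G : Type} [CommRing k] [IsDomain k] [IsPrincipalIdealRing k] [Group G] [Fintype G]

variable {C X I P : Rep.{0} k G} {i : C ⟶ X} {π : X ⟶ I} {j : I ⟶ P}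
  {ε : P ⟶ Rep.trivial k G k} {w₁ : i ≫ π = 0} {w₂ : j ≫ ε = 0}
  (hA : (ShortComplex.mk i π w₁).ShortExact) (hB : (ShortComplex.mk j ε w₂).ShortExact)

/-- Elements of `k` as invariants of the trivial representation. -/
def trivInv : k →ₗ[k] (Rep.trivial k G k).ρ.invariants :=
  LinearMap.codRestrict _ LinearMap.id fun _ _ => rfl

lemma trivInv_surjective : Function.Surjective (trivInv (k := k) (G := G)) :=
  fun t => ⟨t.1, Subtype.ext rfl⟩

/-- The map `k → H²(G, C)` given by the two rows. -/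
def rowMap : k →ₗ[k] groupCohomology C 2 :=
  (ddRow hA hB).hom ∘ₗ (H0Iso (Rep.trivial k G k)).inv.hom ∘ₗ trivInv

include hA hB in
lemma rowMap_surjective (hX : IsCohTriv X) (hP : IsCohTriv P) :
    Function.Surjective (rowMap hA hB) := by
  have h1 := ddRow_surjective hA hB (isZero_groupCohomology_of_isCohTriv hP 0)
    (isZero_groupCohomology_of_isCohTriv hX 1)
  have h2 : Function.Surjective (H0Iso (Rep.trivial k G k)).inv.hom := fun x =>
    ⟨(H0Iso (Rep.trivial k G k)).hom.hom x,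
      congrArg (fun m => m.hom x) (H0Iso (Rep.trivial k G k)).hom_inv_id⟩
  exact h1.comp (h2.comp trivInv_surjective)

include hA hB in
lemma dvd_of_rowMap_eq_zero (hX : IsCohTriv X) (hP : IsCohTriv P) (t : k)
    (ht : rowMap hA hB t = 0) : ∃ c : k, t = (Fintype.card G : k) * c := by
  obtain ⟨s, hs⟩ := exists_card_smul_of_ddRow_eq_zero hA hB
    (isZero_groupCohomology_of_isCohTriv hX 0) hP (fun _ _ => rfl) (trivInv t) ht
  refine ⟨s, ?_⟩
  have : t = Fintype.card G • s := hs
  rw [this, nsmul_eq_mul]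

/-- The class of an invariant of `up (up R)` in `H²(G, R)`. -/
def upMap (R : Rep.{0} k G) : (up (up R)).ρ.invariants →ₗ[k] groupCohomology R 2 :=
  (ddUp R).hom ∘ₗ (H0Iso (up (up R))).inv.hom

lemma upMap_surjective (R : Rep.{0} k G) : Function.Surjective (upMap R) := by
  have h2 : Function.Surjective (H0Iso (up (up R))).inv.hom := fun x =>
    ⟨(H0Iso (up (up R))).hom.hom x, congrArg (fun m => m.hom x) (H0Iso (up (up R))).hom_inv_id⟩
  exact (ddUp_surjective R).comp h2

lemma upMap_normInv (R : Rep.{0} k G) (y : (up (up R)).V) :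
    upMap R (normInv (up (up R)) y) = 0 := by
  have h : normInv (up (up R)) y =
      ⟨∑ g : G, (up (up R)).ρ g y, norm_mem_invariants _ y⟩ :=
    Subtype.ext (normInv_coe _ y)
  rw [h]
  exact ddUp_norm R y

include hA hB in
/-- **Tate–Nakayama, surjectivity.** -/
theorem exists_hom_coeffMap_eq (hn : (Fintype.card G : k) ≠ 0)
    (hX : IsCohTriv X) (hP : IsCohTriv P)
    (R : Rep.{0} k G) [Module.Free k R.V] [Module.Finite k R.V]
    (φ : groupCohomology R 2 →ₗ[k] groupCohomology C 2) :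
    ∃ f : R ⟶ C, ∀ x, (coeffMap f 2).hom x = φ x := by
  haveI : Module.Free k (up R).V := free_up R
  haveI : Module.Finite k (up R).V := finite_up R
  haveI : Module.Free k (up (up R)).V := free_up (up R)
  haveI : Module.Finite k (up (up R)).V := finite_up (up R)
  haveI : Module.Free k (up (up R)).ρ.invariants := free_invariants (up (up R))
  obtain ⟨μ, hμ⟩ := Module.projective_lifting_property (rowMap hA hB) (φ ∘ₗ upMap R)
    (rowMap_surjective hA hB hX hP)
  have hμ' : ∀ r, rowMap hA hB (μ r) = φ (upMap R r) := fun r =>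
    congrArg (fun m => m r) hμ
  have hdvd : ∀ y : (up (up R)).V,
      ∃ c : k, μ (normInv (up (up R)) y) = (Fintype.card G : k) * c := fun y => by
    apply dvd_of_rowMap_eq_zero hA hB hX hP
    rw [hμ', upMap_normInv, map_zero]
  obtain ⟨e, he⟩ := exists_hom_of_dvd_norm hn (up (up R)) μ hdvd
  haveI : Mono j := hB.mono_f
  haveI : Mono i := hA.mono_f
  have hεs : Function.Surjective ε.hom := (Rep.epi_iff_surjective ε).1 hB.epi_g
  have hπs : Function.Surjective π.hom := (Rep.epi_iff_surjective π).1 hA.epi_g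
  obtain ⟨t₂', c4⟩ := exists_lift_coind₁ ε hεs (upπ (up R) ≫ e)
  have z1 : (coind₁ι (up R) ≫ t₂') ≫ ε = 0 := by
    rw [Category.assoc, c4, ← Category.assoc]
    have : coind₁ι (up R) ≫ upπ (up R) = 0 := (upSC (up R)).zero
    rw [this, Limits.zero_comp]
  let h : up R ⟶ I := hB.exact.lift (coind₁ι (up R) ≫ t₂') z1
  have c3 : h ≫ j = coind₁ι (up R) ≫ t₂' := hB.exact.lift_f _ z1
  obtain ⟨t₂, c2⟩ := exists_lift_coind₁ π hπs (upπ R ≫ h)
  have z2 : (coind₁ι R ≫ t₂) ≫ π = 0 := by
    rw [Category.assoc, c2, ← Category.assoc]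
    have : coind₁ι R ≫ upπ R = 0 := (upSC R).zero
    rw [this, Limits.zero_comp]
  let f : R ⟶ C := hA.exact.lift (coind₁ι R ≫ t₂) z2
  have c1 : f ≫ i = coind₁ι R ≫ t₂ := hA.exact.lift_f _ z2
  refine ⟨f, fun x => ?_⟩
  obtain ⟨r, rfl⟩ := upMap_surjective R x
  have key := coeffMap_ddUp hA hB f t₂ h t₂' e c1 c2 c3 c4 r
  have h5 : mapInv e r = trivInv (μ r) := Subtype.ext (he r)
  rw [h5] at key
  change (coeffMap f 2).hom ((ddUp R).hom ((H0Iso _).inv r)) = φ (upMap R r)
  rw [key, ← hμ']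
  rfl

include hA hB in
/-- **Tate–Nakayama, kernel.** -/
theorem exists_normHom_of_coeffMap_eq_zero (hn : (Fintype.card G : k) ≠ 0)
    (hX : IsCohTriv X) (hP : IsCohTriv P)
    (R : Rep.{0} k G) [Module.Free k R.V] [Module.Finite k R.V]
    (hNX : IsCohTriv ((Rep.ihom R).obj X)) (hNP : IsCohTriv ((Rep.ihom (up R)).obj P))
    (f : R ⟶ C) (hf : ∀ x, (coeffMap f 2).hom x = 0) :
    ∃ ψ : R.V →ₗ[k] C.V, f = normHom ψ := by
  haveI : Module.Free k (up R).V := free_up R
  haveI : Module.Finite k (up R).V := finite_up R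
  haveI : Module.Free k (up (up R)).V := free_up (up R)
  haveI : Module.Finite k (up (up R)).V := finite_up (up R)
  haveI : Mono j := hB.mono_f
  haveI : Mono i := hA.mono_f
  haveI : Epi (upSC R).g := upπ_epi R
  haveI : Epi (upSC (up R)).g := upπ_epi (up R)
  have hεs : Function.Surjective ε.hom := (Rep.epi_iff_surjective ε).1 hB.epi_g
  have hπs : Function.Surjective π.hom := (Rep.epi_iff_surjective π).1 hA.epi_g
  have zR : coind₁ι R ≫ upπ R = 0 := (upSC R).zero
  have zR' : coind₁ι (up R) ≫ upπ (up R) = 0 := (upSC (up R)).zero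
  -- first square
  obtain ⟨ψ₁, h1⟩ := exists_normHom_of_isCohTriv_ihom hNX (f ≫ i)
  let t₂ : coind₁ R ⟶ X := normHom (ψ₁ ∘ₗ ev₁ R)
  have c1 : f ≫ i = coind₁ι R ≫ t₂ := by
    rw [coind₁ι_comp_normHom_ev, h1]
  have z1 : (upSC R).f ≫ (t₂ ≫ π) = 0 := by
    change coind₁ι R ≫ (t₂ ≫ π) = 0
    rw [← Category.assoc, ← c1, Category.assoc, w₁, Limits.comp_zero]
  let h : up R ⟶ I := (upSC_shortExact R).exact.desc (t₂ ≫ π) z1
  have c2 : t₂ ≫ π = upπ R ≫ h := ((upSC_shortExact R).exact.g_desc _ z1).symm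
  -- second square
  obtain ⟨ψ₂, h2⟩ := exists_normHom_of_isCohTriv_ihom hNP (h ≫ j)
  let t₂' : coind₁ (up R) ⟶ P := normHom (ψ₂ ∘ₗ ev₁ (up R))
  have c3 : h ≫ j = coind₁ι (up R) ≫ t₂' := by
    rw [coind₁ι_comp_normHom_ev, h2]
  have z2 : (upSC (up R)).f ≫ (t₂' ≫ ε) = 0 := by
    change coind₁ι (up R) ≫ (t₂' ≫ ε) = 0
    rw [← Category.assoc, ← c3, Category.assoc, w₂, Limits.comp_zero]
  let e : up (up R) ⟶ Rep.trivial k G k := (upSC_shortExact (up R)).exact.desc (t₂' ≫ ε) z2
  have c4 : t₂' ≫ ε = upπ (up R) ≫ e := ((upSC_shortExact (up R)).exact.g_desc _ z2).symm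
  -- `e` takes values divisible by `n` on invariants
  have hdvd : ∀ r : (up (up R)).ρ.invariants,
      ∃ c : k, e.hom r.1 = (Fintype.card G : k) * c := fun r => by
    have key := coeffMap_ddUp hA hB f t₂ h t₂' e c1 c2 c3 c4 r
    rw [hf] at key
    exact dvd_of_rowMap_eq_zero hA hB hX hP (e.hom r.1) key.symm
  obtain ⟨ψ₃, h3⟩ := exists_normHom_of_dvd_invariants hn (up (up R)) e hdvd
  -- lift `e` to `P`
  obtain ⟨p₀, hp₀⟩ := hεs (1 : k)
  let e' : up (up R) ⟶ P := normHom (ψ₃.smulRight p₀)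
  have he' : e' ≫ ε = e := by
    rw [h3, normHom_comp]
    congr 1
    apply LinearMap.ext
    intro y
    change ε.hom (ψ₃ y • p₀) = ψ₃ y
    rw [map_smul, hp₀, smul_eq_mul, mul_one]
  -- `h` extends to `coind₁ (up R)`
  have z3 : (t₂' - upπ (up R) ≫ e') ≫ ε = 0 := by
    rw [Preadditive.sub_comp, Category.assoc, he', c4, sub_self]
  let kk : coind₁ (up R) ⟶ I := hB.exact.lift (t₂' - upπ (up R) ≫ e') z3
  have hkk : kk ≫ j = t₂' - upπ (up R) ≫ e' := hB.exact.lift_f _ z3
  have hkk' : coind₁ι (up R) ≫ kk = h := by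
    rw [← cancel_mono j, Category.assoc, hkk, Preadditive.comp_sub, ← Category.assoc, zR',
      Limits.zero_comp, sub_zero, c3]
  obtain ⟨kt, hkt⟩ := exists_lift_coind₁ π hπs kk
  -- `f` extends to `coind₁ R`
  have z4 : (t₂ - upπ R ≫ coind₁ι (up R) ≫ kt) ≫ π = 0 := by
    rw [Preadditive.sub_comp, Category.assoc, Category.assoc, hkt, hkk', c2, sub_self]
  let m : coind₁ R ⟶ C := hA.exact.lift (t₂ - upπ R ≫ coind₁ι (up R) ≫ kt) z4
  have hm : m ≫ i = t₂ - upπ R ≫ coind₁ι (up R) ≫ kt := hA.exact.lift_f _ z4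
  have hm' : coind₁ι R ≫ m = f := by
    rw [← cancel_mono i, Category.assoc, hm, Preadditive.comp_sub, ← Category.assoc, zR,
      Limits.zero_comp, sub_zero, c1]
  obtain ⟨ψ', hψ'⟩ := hom_coind₁_eq_normHom m
  refine ⟨ψ' ∘ₗ (coind₁ι R).hom.toLinearMap, ?_⟩
  rw [← hm', hψ', comp_normHom]

end

end Fermat.Agent.S55.T.H837
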