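import Fermat.Agent.S55.T.NakH837.WeakProj

/-!
# S55, layer T, leaf T6 (helper837): the splitting-module interface consumed by Tate–Nakayama

`TateSpec` only gives abstract isomorphisms, which is not enough to prove `TateNakayamaSpec`
(an explicit statement about `f ↦ H²(f)`).  What the proof of T6 consumes is the *splitting
module* itself: exact rows

  `0 → C → X → I → 0`,   `0 → I → F → ℤ → 0`

with `F` weakly projective (e.g. `F = ℤ[G]` or `coind₁ ℤ`, `I` the augmentation ideal) and `X`
satisfying the twin-vanishing hypotheses `H¹(H, X) = H²(H, X) = 0` for all `H ≤ G`.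
This is exactly what the proof of Tate's theorem (leaf T5a) constructs.
-/

set_option autoImplicit false

open CategoryTheory groupCohomology

namespace Fermat.Agent.S55.T.H837

/-- `C` admits a splitting module. -/
def HasSplitting {G : Type} [Group G] [Fintype G] (C : Rep.{0} ℤ G) : Prop :=
  ∃ (X I F : Rep.{0} ℤ G) (i : C ⟶ X) (π : X ⟶ I) (j : I ⟶ F) (ε : F ⟶ Rep.trivial ℤ G ℤ)
    (w₁ : i ≫ π = 0) (w₂ : j ≫ ε = 0),
    (ShortComplex.mk i π w₁).ShortExact ∧ (ShortComplex.mk j ε w₂).ShortExact ∧
    IsWeakProj F ∧
    ∀ H : Subgroup G, Limits.IsZero (groupCohomology (resSub X H) 1) ∧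
      Limits.IsZero (groupCohomology (resSub X H) 2)

/-- **Splitting-module interface** (to be produced by leaf T5a): every class module admits a
splitting module. -/
def SplittingSpec : Prop :=
  ∀ (G : Type) [Group G] [Fintype G] (C : Rep.{0} ℤ G) (γ : groupCohomology C 2),
    IsClassModule C γ → HasSplitting C

end Fermat.Agent.S55.T.H837
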