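import Fermat.Agent.S55.T.Spec
import Fermat.Agent.S55.H572.DimShift

/-!
# S55, layer T, leaf T6 (helper837): norms of linear maps and weakly projective representations

For representations `A B : Rep k G` of a finite group and a `k`-linear map `ψ : A → B` the norm
`N ψ = ∑_g g ∘ ψ ∘ g⁻¹` is a morphism of representations.  `A` is *weakly projective* if
`𝟙 A = N u` for some `k`-linear `u`.  Coinduced modules `coind₁ A` are weakly projective.
-/

set_option autoImplicit false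

open CategoryTheory groupCohomology

namespace Fermat.Agent.S55.T.H837

open Fermat.Agent.S55.H572

noncomputable section

variable {k G : Type} [CommRing k] [Group G] [Fintype G]

/-- The norm `∑_g g ∘ ψ ∘ g⁻¹` of a `k`-linear map between representations. -/
def normLin {A B : Rep.{0} k G} (ψ : A.V →ₗ[k] B.V) : A.V →ₗ[k] B.V :=
  ∑ g : G, B.ρ g ∘ₗ ψ ∘ₗ A.ρ g⁻¹

lemma normLin_apply {A B : Rep.{0} k G} (ψ : A.V →ₗ[k] B.V) (a : A.V) :
    normLin ψ a = ∑ g : G, B.ρ g (ψ (A.ρ g⁻¹ a)) := by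
  simp [normLin, LinearMap.sum_apply]

lemma normLin_equivariant {A B : Rep.{0} k G} (ψ : A.V →ₗ[k] B.V) (h : G) (a : A.V) :
    normLin ψ (A.ρ h a) = B.ρ h (normLin ψ a) := by
  rw [normLin_apply, normLin_apply, map_sum]
  refine Fintype.sum_equiv (Equiv.mulLeft h⁻¹) _ _ fun g => ?_
  change B.ρ g (ψ (A.ρ g⁻¹ (A.ρ h a))) = B.ρ h (B.ρ (h⁻¹ * g) (ψ (A.ρ (h⁻¹ * g)⁻¹ a)))
  rw [← Module.End.mul_apply, ← map_mul, ← Module.End.mul_apply (B.ρ h), ← map_mul,
    mul_inv_rev, inv_inv, mul_inv_cancel_left]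

/-- The norm of a linear map as a morphism of representations. -/
def normHom {A B : Rep.{0} k G} (ψ : A.V →ₗ[k] B.V) : A ⟶ B :=
  Rep.ofHom (ρ := A.ρ) (σ := B.ρ) ⟨normLin ψ, fun g => by
    apply LinearMap.ext
    intro a
    exact normLin_equivariant ψ g a⟩

lemma normHom_hom_apply {A B : Rep.{0} k G} (ψ : A.V →ₗ[k] B.V) (a : A.V) :
    (normHom ψ).hom a = ∑ g : G, B.ρ g (ψ (A.ρ g⁻¹ a)) :=
  normLin_apply ψ a

lemma normHom_comp {A B B' : Rep.{0} k G} (ψ : A.V →ₗ[k] B.V) (f : B ⟶ B') :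
    normHom ψ ≫ f = normHom (f.hom.toLinearMap ∘ₗ ψ) := by
  apply Rep.hom_ext
  apply Representation.IntertwiningMap.ext
  apply LinearMap.ext
  intro a
  change f.hom ((normHom ψ).hom a) = (normHom (f.hom.toLinearMap ∘ₗ ψ)).hom a
  rw [normHom_hom_apply, normHom_hom_apply, map_sum]
  refine Finset.sum_congr rfl fun g _ => ?_
  exact Rep.hom_comm_apply f g _

lemma comp_normHom {A' A B : Rep.{0} k G} (f : A' ⟶ A) (ψ : A.V →ₗ[k] B.V) :
    f ≫ normHom ψ = normHom (ψ ∘ₗ f.hom.toLinearMap) := by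
  apply Rep.hom_ext
  apply Representation.IntertwiningMap.ext
  apply LinearMap.ext
  intro a
  change (normHom ψ).hom (f.hom a) = (normHom (ψ ∘ₗ f.hom.toLinearMap)).hom a
  rw [normHom_hom_apply, normHom_hom_apply]
  refine Finset.sum_congr rfl fun g _ => ?_
  change B.ρ g (ψ (A.ρ g⁻¹ (f.hom a))) = B.ρ g (ψ (f.hom (A'.ρ g⁻¹ a)))
  rw [Rep.hom_comm_apply]

/-- The norm of a morphism of representations is `|G|` times the morphism. -/
lemma normHom_of_hom_apply {A B : Rep.{0} k G} (f : A ⟶ B) (a : A.V) :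
    (normHom f.hom.toLinearMap).hom a = Fintype.card G • f.hom a := by
  rw [normHom_hom_apply]
  have : ∀ g : G, B.ρ g (f.hom.toLinearMap (A.ρ g⁻¹ a)) = f.hom a := fun g => by
    change B.ρ g (f.hom (A.ρ g⁻¹ a)) = f.hom a
    rw [Rep.hom_comm_apply, ← Module.End.mul_apply, ← map_mul, mul_inv_cancel, map_one]
    rfl
  rw [Finset.sum_congr rfl fun g _ => this g]
  simp

/-- `A` is weakly projective: the identity is the norm of a `k`-linear endomorphism. -/
def IsWeakProj (A : Rep.{0} k G) : Prop :=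
  ∃ u : A.V →ₗ[k] A.V, ∀ a : A.V, ∑ g : G, A.ρ g (u (A.ρ g⁻¹ a)) = a

lemma IsWeakProj.normHom_eq {A : Rep.{0} k G} {u : A.V →ₗ[k] A.V}
    (hu : ∀ a : A.V, ∑ g : G, A.ρ g (u (A.ρ g⁻¹ a)) = a) : normHom u = 𝟙 A := by
  apply Rep.hom_ext
  apply Representation.IntertwiningMap.ext
  apply LinearMap.ext
  intro a
  change (normHom u).hom a = a
  rw [normHom_hom_apply, hu]

/-- A morphism into a weakly projective representation is a norm. -/
lemma hom_eq_normHom_of_isWeakProj_right {A B : Rep.{0} k G} (hB : IsWeakProj B) (f : A ⟶ B) :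
    ∃ ψ : A.V →ₗ[k] B.V, f = normHom ψ := by
  obtain ⟨u, hu⟩ := hB
  refine ⟨u ∘ₗ f.hom.toLinearMap, ?_⟩
  rw [← comp_normHom, IsWeakProj.normHom_eq hu, Category.comp_id]

/-- A morphism out of a weakly projective representation is a norm. -/
lemma hom_eq_normHom_of_isWeakProj_left {A B : Rep.{0} k G} (hA : IsWeakProj A) (f : A ⟶ B) :
    ∃ ψ : A.V →ₗ[k] B.V, f = normHom ψ := by
  obtain ⟨u, hu⟩ := hA
  refine ⟨f.hom.toLinearMap ∘ₗ u, ?_⟩
  rw [← normHom_comp, IsWeakProj.normHom_eq hu, Category.id_comp]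

/-- Invariants of a weakly projective representation are norms. -/
lemma IsWeakProj.exists_norm_eq {A : Rep.{0} k G} (hA : IsWeakProj A) (a : A.V)
    (ha : ∀ g : G, A.ρ g a = a) : ∃ b : A.V, ∑ g : G, A.ρ g b = a := by
  obtain ⟨u, hu⟩ := hA
  refine ⟨u a, ?_⟩
  conv_rhs => rw [← hu a]
  refine Finset.sum_congr rfl fun g _ => ?_
  rw [ha]

/-- `1`-cocycles with values in a weakly projective representation are coboundaries. -/
lemma IsWeakProj.exists_coboundary {A : Rep.{0} k G} (hA : IsWeakProj A) (c : G → A.V)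
    (hc : ∀ g h : G, c (g * h) = A.ρ g (c h) + c g) :
    ∃ b : A.V, ∀ g : G, c g = A.ρ g b - b := by
  obtain ⟨u, hu⟩ := hA
  refine ⟨-∑ h : G, A.ρ h (u (A.ρ h⁻¹ (c h))), fun g => ?_⟩
  have key : A.ρ g (∑ h : G, A.ρ h (u (A.ρ h⁻¹ (c h)))) =
      ∑ h : G, A.ρ h (u (A.ρ h⁻¹ (c h))) - c g := by
    rw [map_sum]
    have e1 : ∑ h : G, A.ρ g (A.ρ h (u (A.ρ h⁻¹ (c h)))) =
        ∑ h : G, A.ρ h (u (A.ρ h⁻¹ (c h - c g))) := by
      refine Fintype.sum_equiv (Equiv.mulLeft g) _ _ fun h => ?_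
      change A.ρ g (A.ρ h (u (A.ρ h⁻¹ (c h)))) =
        A.ρ (g * h) (u (A.ρ (g * h)⁻¹ (c (g * h) - c g)))
      rw [hc g h, add_sub_cancel_right, mul_inv_rev, map_mul, map_mul, Module.End.mul_apply,
        Module.End.mul_apply, ← Module.End.mul_apply (A.ρ g⁻¹) (A.ρ g), ← map_mul,
        inv_mul_cancel, map_one, Module.End.one_apply]
    rw [e1]
    simp only [map_sub, Finset.sum_sub_distrib, hu]
  rw [map_neg, key]
  abel

end

end Fermat.Agent.S55.T.H837
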